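/-
S52 (the 3–5 switch), the node case `j = ∞` of [RAM-LOC] (helper16; prefix `s52mz_`), file 1:
THE GROUP-THEORETIC HALF.

An additive automorphism `g` of an abelian group of order `25` and exponent `5` that fixes a
nonzero element satisfies `g⁵ = id` or `g⁴ = id`: in a basis `(P₀, Q)` it is `[[1, α], [0, d]]`,
and `d = 1 ⟹ g⁵ = 1`, `d ≠ 1 ⟹ g⁴ = 1` (`1 + d + d² + d³ = 0`, `d⁴ = 1` in `𝔽₅`).
-/
import Mathlib

set_option autoImplicit false

namespace Fermat.Agent.S52

section Lin

variable {V : Type*} [AddCommGroup V] [Module (ZMod 5) V]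

/-- iterates of `g` on `Q`, when `g P₀ = P₀` and `g Q = α • P₀ + d • Q` -/
theorem s52mz_iter (g : V →ₗ[ZMod 5] V) (P0 Q : V) (α d : ZMod 5) (hfix : g P0 = P0)
    (hQ : g Q = α • P0 + d • Q) (k : ℕ) :
    (g ^ k) Q = (α * ∑ i ∈ Finset.range k, d ^ i) • P0 + d ^ k • Q := by
  induction k with
  | zero => simp
  | succ k ih =>
    rw [pow_succ', Module.End.mul_apply, ih, map_add, map_smul, map_smul, hfix, hQ,
      Finset.sum_range_succ, smul_add, smul_smul, smul_smul, ← add_assoc, ← add_smul]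
    congr 2
    ring

theorem s52mz_arith (d : ZMod 5) (hd : d ≠ 0) :
    (d = 1 ∧ (∑ i ∈ Finset.range 5, d ^ i = 0) ∧ d ^ 5 = 1) ∨
      ((∑ i ∈ Finset.range 4, d ^ i = 0) ∧ d ^ 4 = 1) := by
  revert d
  decide

theorem s52mz_neg_one_ne : (-1 : ZMod 5) ≠ 0 := by decide

/-- **linear form**: an injective endomorphism of a plane over `𝔽₅` fixing a nonzero vector has
`g⁵ = 1` or `g⁴ = 1`. -/
theorem s52mz_lin (hrank : Module.finrank (ZMod 5) V = 2) (g : V →ₗ[ZMod 5] V)
    (hg : Function.Injective g) (P0 : V) (hP0 : P0 ≠ 0) (hfix : g P0 = P0) :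
    (∀ x, (g ^ 5) x = x) ∨ (∀ x, (g ^ 4) x = x) := by
  have : Fact (Nat.Prime 5) := ⟨Nat.prime_five⟩
  have : Module.Finite (ZMod 5) V := Module.finite_of_finrank_pos (by rw [hrank]; norm_num)
  obtain ⟨Q, hli⟩ := exists_linearIndependent_pair_of_one_lt_finrank (by rw [hrank]; norm_num) hP0
  have hspan : Submodule.span (ZMod 5) (Set.range ![P0, Q]) = ⊤ :=
    hli.span_eq_top_of_card_eq_finrank' (by rw [hrank]; simp)
  have hrange : Set.range ![P0, Q] = {P0, Q} := by
    ext z
    simp only [Set.mem_range, Set.mem_insert_iff, Set.mem_singleton_iff]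
    constructor
    · rintro ⟨i, rfl⟩
      fin_cases i
      · left; rfl
      · right; rfl
    · rintro (rfl | rfl)
      · exact ⟨0, rfl⟩
      · exact ⟨1, rfl⟩
  rw [hrange] at hspan
  have hmem : ∀ x : V, ∃ a b : ZMod 5, a • P0 + b • Q = x := fun x =>
    Submodule.mem_span_pair.mp (by rw [hspan]; trivial)
  obtain ⟨α, d, hαd⟩ := hmem (g Q)
  have hd : d ≠ 0 := by
    rintro rfl
    rw [zero_smul, add_zero] at hαd
    have h1 : g (α • P0) = g Q := by rw [map_smul, hfix, hαd]
    have h2 : α • P0 = Q := hg h1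
    have := (LinearIndependent.pair_iff.mp hli) α (-1) (by rw [h2]; simp)
    exact s52mz_neg_one_ne this.2
  have hfixk : ∀ k : ℕ, (g ^ k) P0 = P0 := by
    intro k
    induction k with
    | zero => simp
    | succ k ih => rw [pow_succ', Module.End.mul_apply, ih, hfix]
  have key : ∀ k : ℕ, (∑ i ∈ Finset.range k, d ^ i = 0) → d ^ k = 1 → ∀ x, (g ^ k) x = x := by
    intro k hs hk x
    obtain ⟨a, b, rfl⟩ := hmem x
    rw [map_add, map_smul, map_smul, hfixk, s52mz_iter g P0 Q α d hfix hαd.symm, hs, hk, mul_zero,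
      zero_smul, zero_add, one_smul]
  rcases s52mz_arith d hd with ⟨-, h1, h2⟩ | ⟨h1, h2⟩
  · exact Or.inl (key 5 h1 h2)
  · exact Or.inr (key 4 h1 h2)

end Lin

/-- **the group-theoretic half**: an injective additive endomorphism of an abelian group of order
`25` and exponent `5` fixing a nonzero element has `g⁵ = id` or `g⁴ = id`. -/
theorem s52mz_pow_fix {G : Type*} [AddCommGroup G] (h5 : ∀ x : G, 5 • x = 0)
    (hcard : Nat.card G = 25) (g : G →+ G) (hg : Function.Injective g) (P0 : G) (hP0 : P0 ≠ 0)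
    (hfix : g P0 = P0) : (∀ x, g^[5] x = x) ∨ (∀ x, g^[4] x = x) := by
  have : Fact (Nat.Prime 5) := ⟨Nat.prime_five⟩
  let _ : Module (ZMod 5) G := AddCommGroup.zmodModule h5
  have : Finite G := Nat.finite_of_card_ne_zero (by rw [hcard]; norm_num)
  have hrank : Module.finrank (ZMod 5) G = 2 := by
    have h := Module.natCard_eq_pow_finrank (K := ZMod 5) (V := G)
    rw [hcard, Nat.card_zmod] at h
    have h25 : (25 : ℕ) = 5 ^ 2 := by norm_num
    rw [h25] at h
    exact (Nat.pow_right_injective (by norm_num : 2 ≤ 5) h).symm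
  have hiter : ∀ (k : ℕ) (x : G), ((g.toZModLinearMap 5) ^ k) x = g^[k] x := by
    intro k
    induction k with
    | zero => intro x; simp
    | succ k ih =>
      intro x
      rw [pow_succ, Module.End.mul_apply, ih, Function.iterate_succ_apply]
      rfl
  rcases s52mz_lin hrank (g.toZModLinearMap 5) hg P0 hP0 hfix with h | h
  · exact Or.inl fun x => by rw [← hiter]; exact h x
  · exact Or.inr fun x => by rw [← hiter]; exact h x

end Fermat.Agent.S52
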