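/-
S52 (the 3–5 switch), the node case `j = ∞` of [RAM-LOC] (helper16; prefix `s52mz_`), file 2.

`K₀ ⊆ Ω`, `Ω` algebraically closed of characteristic `0`, `A` a valuation subring of `Ω` with
`30 ∈ Aˣ`, `E : y² = x³ + a x + b` over `K₀` with `v(J) > 1`, `J = 4 a³ / (4 a³ + 27 b²)`
(multiplicative reduction), `σ` in the inertia group of `A` over `K₀`.  Then `σ⁴` or `σ⁵` fixes the
`x`-coordinate of every point of `E(Ω)` killed by `5`  (`s52mz_node`, the statement of helper7's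
`s52m_node` verbatim).

Proof (helper7's paper proof): minimal scaling `u` (`s52n_exists_scale`), `a' = a / u⁴`,
`b' = b / u⁶` are units and `4 a'³ + 27 b'² ∈ 𝔪` (node); `ζ = σ u / u` has `ζ⁴ ≡ ζ⁶ ≡ 1`, so
`ζ² ≡ 1`; a point `P₀ ≠ 0` of order `5` with nonsingular reduction (`s58m_exists_prime_pow_order` +
`s58m_exists_torsion_lift`) has `σ P₀ = ± P₀` (`s52m_twist`); then `± σ` is `[[1, α], [0, d]]` on
`E[5]` (`s52mz_pow_fix`).
-/
import Mathlib
import Fermat.Agent.S52.RAM.Defs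
import Fermat.Agent.S52.RAM.Twist
import Fermat.Agent.S52.NOS.Unit
import Fermat.Agent.S52.RAMN.Grp
import Fermat.Agent.S13.Ladder.Vieta

set_option autoImplicit false

namespace Fermat.Agent.S52

open WeierstrassCurve WeierstrassCurve.Affine IsLocalRing Fermat.Agent.S58 Fermat.Agent.LR
  Fermat.Agent.S05 Fermat.Agent.S13

section ValLemmas

variable {Ω : Type*} [Field Ω] {A : ValuationSubring Ω}

/-- `w⁴ ≡ 1` and `w⁶ ≡ 1` ⟹ `w² ≡ 1`. -/
theorem s52mz_sq_of_four_six {w : Ω} (h4 : A.valuation (w ^ 4 - 1) < 1)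
    (h6 : A.valuation (w ^ 6 - 1) < 1) : A.valuation (w ^ 2 - 1) < 1 := by
  have hw4 : A.valuation (w ^ 4) = 1 := s52m_val_eq_one_of_sub h4
  have hw : A.valuation w = 1 := by
    rw [map_pow] at hw4
    exact (pow_eq_one_iff_of_nonneg zero_le (by norm_num)).mp hw4
  have : w ^ 2 - 1 = (w ^ 6 - 1) - w ^ 2 * (w ^ 4 - 1) := by ring
  rw [this]
  refine lt_of_le_of_lt (A.valuation.map_sub _ _) (max_lt h6 ?_)
  rw [map_mul, map_pow, hw, one_pow, one_mul]
  exact h4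

/-- `c` a unit, `c · (w - 1) ∈ 𝔪` ⟹ `w - 1 ∈ 𝔪`. -/
theorem s52mz_val_cancel {c z : Ω} (hc : A.valuation c = 1) (h : A.valuation (c * z) < 1) :
    A.valuation z < 1 := by
  rwa [map_mul, hc, one_mul] at h

/-- `w² ≡ 1` ⟹ `(w⁻¹)² ≡ 1`. -/
theorem s52mz_inv_sq {w : Ω} (h : A.valuation (w ^ 2 - 1) < 1) :
    A.valuation ((w⁻¹) ^ 2 - 1) < 1 := by
  have hw2 : A.valuation (w ^ 2) = 1 := s52m_val_eq_one_of_sub h
  have hw0 : w ≠ 0 := by
    rintro rfl
    rw [zero_pow two_ne_zero, map_zero] at hw2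
    exact zero_ne_one hw2
  have : (w⁻¹) ^ 2 - 1 = -((w ^ 2)⁻¹ * (w ^ 2 - 1)) := by
    field_simp
    ring
  rw [this, Valuation.map_neg, map_mul, map_inv₀, hw2, inv_one, one_mul]
  exact h

end ValLemmas

section Main

variable {K₀ Ω : Type*} [Field K₀] [Field Ω] [DecidableEq Ω] [Algebra K₀ Ω] [IsAlgClosed Ω]
  [CharZero Ω]

omit [DecidableEq Ω] [IsAlgClosed Ω] [CharZero Ω] in
theorem s52mz_baseChange (a b : K₀) :
    ((s52n_short a b : Affine K₀)⁄Ω) =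
      (s52n_short (algebraMap K₀ Ω a) (algebraMap K₀ Ω b)).toAffine :=
  s52n_short_map a b (algebraMap K₀ Ω)

/-- the scaled model: units `a'`, `b'`, nodal reduction, `ζ² ≡ 1`. -/
theorem s52mz_setup (a b : K₀) (hD : 4 * a ^ 3 + 27 * b ^ 2 ≠ 0) (A : ValuationSubring Ω)
    (h30 : A.valuation (30 : Ω) = 1) {σ : Ω ≃ₐ[K₀] Ω} (hσ : σ ∈ A.inertiaSubgroupIn K₀)
    (hJ : 1 < A.valuation (s52m_J Ω a b)) :
    ∃ (u : Ωˣ) (a' b' : A), s52n_C u • ((s52n_short a b : Affine K₀)⁄Ω) =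
        s52n_short (a' : Ω) (b' : Ω) ∧
      A.valuation (a' : Ω) = 1 ∧ A.valuation (b' : Ω) = 1 ∧
      A.valuation (4 * (a' : Ω) ^ 3 + 27 * (b' : Ω) ^ 2) < 1 ∧
      4 * (a' : Ω) ^ 3 + 27 * (b' : Ω) ^ 2 ≠ 0 ∧
      A.valuation ((σ (u : Ω) / u) ^ 2 - 1) < 1 := by
  obtain ⟨hv2, hv3, hv5⟩ := s52n_val_235 A h30
  set aΩ : Ω := algebraMap K₀ Ω a with haΩ
  set bΩ : Ω := algebraMap K₀ Ω b with hbΩ
  have hDmap : 4 * aΩ ^ 3 + 27 * bΩ ^ 2 = algebraMap K₀ Ω (4 * a ^ 3 + 27 * b ^ 2) := by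
    simp only [haΩ, hbΩ, map_add, map_mul, map_pow, map_ofNat]
  have hDΩ : 4 * aΩ ^ 3 + 27 * bΩ ^ 2 ≠ 0 := by
    rw [hDmap]
    exact (map_ne_zero _).mpr hD
  have hab : aΩ ≠ 0 ∨ bΩ ≠ 0 := by
    by_contra hcon
    push Not at hcon
    apply hDΩ
    rw [hcon.1, hcon.2]
    ring
  obtain ⟨u₀, hu0, ha', hb', hunit⟩ := s52n_exists_scale A aΩ bΩ hab
  set u : Ωˣ := Units.mk0 u₀ hu0 with hu
  set a' : A := ⟨aΩ / u₀ ^ 4, (A.valuation_le_one_iff _).mp ha'⟩ with ha'def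
  set b' : A := ⟨bΩ / u₀ ^ 6, (A.valuation_le_one_iff _).mp hb'⟩ with hb'def
  have ha'v : (a' : Ω) = aΩ / u₀ ^ 4 := rfl
  have hb'v : (b' : Ω) = bΩ / u₀ ^ 6 := rfl
  have hu12 : u₀ ^ 12 ≠ 0 := pow_ne_zero _ hu0
  have hD'eq : 4 * (a' : Ω) ^ 3 + 27 * (b' : Ω) ^ 2 = (4 * aΩ ^ 3 + 27 * bΩ ^ 2) / u₀ ^ 12 := by
    rw [ha'v, hb'v]
    field_simp
  have hD'0 : 4 * (a' : Ω) ^ 3 + 27 * (b' : Ω) ^ 2 ≠ 0 := by
    rw [hD'eq]
    exact div_ne_zero hDΩ hu12
  -- the `J`-invariant on the scaled model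
  have hJeq : s52m_J Ω a b * (4 * (a' : Ω) ^ 3 + 27 * (b' : Ω) ^ 2) = 4 * (a' : Ω) ^ 3 := by
    have h1 : s52m_J Ω a b = 4 * aΩ ^ 3 / (4 * aΩ ^ 3 + 27 * bΩ ^ 2) := by
      simp only [s52m_J, haΩ, hbΩ, map_div₀, map_add, map_mul, map_pow, map_ofNat]
    rw [h1, hD'eq, ha'v]
    field_simp
  have hv4 : A.valuation (4 : Ω) = 1 := by
    have : (4 : Ω) = 2 * 2 := by norm_num
    rw [this, map_mul, hv2, one_mul]
  have hv27 : A.valuation (27 : Ω) = 1 := by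
    have : (27 : Ω) = 3 * 3 * 3 := by norm_num
    rw [this, map_mul, map_mul, hv3, one_mul, one_mul]
  have ha'le : A.valuation (a' : Ω) ≤ 1 := (A.valuation_le_one_iff _).mpr a'.2
  have hb'le : A.valuation (b' : Ω) ≤ 1 := (A.valuation_le_one_iff _).mpr b'.2
  have hD'le : A.valuation (4 * (a' : Ω) ^ 3 + 27 * (b' : Ω) ^ 2) ≤ 1 :=
    (A.valuation_le_one_iff _).mpr
      (A.add_mem _ _ (A.mul_mem _ _ (by exact_mod_cast natCast_mem A 4) (pow_mem a'.2 3))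
        (A.mul_mem _ _ (by exact_mod_cast natCast_mem A 27) (pow_mem b'.2 2)))
  have hD'lt : A.valuation (4 * (a' : Ω) ^ 3 + 27 * (b' : Ω) ^ 2) < 1 := by
    refine lt_of_le_of_ne hD'le fun h1 => ?_
    have h2 := congrArg A.valuation hJeq
    rw [map_mul, h1, mul_one] at h2
    rw [h2, map_mul, map_pow, hv4, one_mul] at hJ
    exact absurd hJ (not_lt.mpr (pow_le_one' ha'le 3))
  -- both `a'` and `b'` are units
  have ha'1 : A.valuation (a' : Ω) = 1 := by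
    refine le_antisymm ha'le (not_lt.mp fun hlt => ?_)
    have hb1 : A.valuation (b' : Ω) = 1 := by
      rcases hunit with h | h
      · exact absurd (show A.valuation (a' : Ω) = 1 from h) hlt.ne
      · exact h
    have h3 : 27 * (b' : Ω) ^ 2 = (4 * (a' : Ω) ^ 3 + 27 * (b' : Ω) ^ 2) - 4 * (a' : Ω) ^ 3 := by
      ring
    have h4 : A.valuation (27 * (b' : Ω) ^ 2) < 1 := by
      rw [h3]
      refine lt_of_le_of_lt (A.valuation.map_sub _ _) (max_lt hD'lt ?_)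
      rw [map_mul, map_pow, hv4, one_mul]
      exact pow_lt_one' hlt (by norm_num)
    rw [map_mul, map_pow, hv27, hb1, one_pow, one_mul] at h4
    exact lt_irrefl _ h4
  have hb'1 : A.valuation (b' : Ω) = 1 := by
    refine le_antisymm hb'le (not_lt.mp fun hlt => ?_)
    have h3 : 4 * (a' : Ω) ^ 3 = (4 * (a' : Ω) ^ 3 + 27 * (b' : Ω) ^ 2) - 27 * (b' : Ω) ^ 2 := by
      ring
    have h4 : A.valuation (4 * (a' : Ω) ^ 3) < 1 := by
      rw [h3]
      refine lt_of_le_of_lt (A.valuation.map_sub _ _) (max_lt hD'lt ?_)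
      rw [map_mul, map_pow, hv27, one_mul]
      exact pow_lt_one' hlt (by norm_num)
    rw [map_mul, map_pow, hv4, ha'1, one_pow, one_mul] at h4
    exact lt_irrefl _ h4
  -- the change of variables
  have hC : s52n_C u • ((s52n_short a b : Affine K₀)⁄Ω) = s52n_short (a' : Ω) (b' : Ω) := by
    rw [s52mz_baseChange, s52n_C_smul]
    show s52n_short _ _ = s52n_short (aΩ / u₀ ^ 4) (bΩ / u₀ ^ 6)
    congr 1
    · rw [hu, Units.val_inv_eq_inv_val, Units.val_mk0, inv_pow, div_eq_inv_mul]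
    · rw [hu, Units.val_inv_eq_inv_val, Units.val_mk0, inv_pow, div_eq_inv_mul]
  -- `ζ² ≡ 1`
  have hζ : A.valuation ((σ (u : Ω) / u) ^ 2 - 1) < 1 := by
    have huv : (u : Ω) = u₀ := rfl
    rw [huv]
    have hσu0 : σ u₀ ≠ 0 := by simpa using hu0
    set w : Ω := u₀ / σ u₀ with hw
    have hσa : σ (a' : Ω) = aΩ / (σ u₀) ^ 4 := by
      rw [ha'v, map_div₀, map_pow, haΩ, σ.commutes]
    have hσb : σ (b' : Ω) = bΩ / (σ u₀) ^ 6 := by
      rw [hb'v, map_div₀, map_pow, hbΩ, σ.commutes]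
    have h4 : A.valuation (w ^ 4 - 1) < 1 := by
      have h1 := inertia_sub_lt_one A hσ a'.2
      have h2 : σ (a' : Ω) - (a' : Ω) = (a' : Ω) * (w ^ 4 - 1) := by
        rw [hσa, ha'v, hw]
        field_simp
      rw [h2] at h1
      exact s52mz_val_cancel ha'1 h1
    have h6 : A.valuation (w ^ 6 - 1) < 1 := by
      have h1 := inertia_sub_lt_one A hσ b'.2
      have h2 : σ (b' : Ω) - (b' : Ω) = (b' : Ω) * (w ^ 6 - 1) := by
        rw [hσb, hb'v, hw]
        field_simp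
      rw [h2] at h1
      exact s52mz_val_cancel hb'1 h1
    have h2 := s52mz_inv_sq (s52mz_sq_of_four_six h4 h6)
    have h3 : w⁻¹ = σ u₀ / u₀ := by rw [hw, inv_div]
    rwa [h3] at h2
  exact ⟨u, a', b', hC, ha'1, hb'1, hD'lt, hD'0, hζ⟩

omit [IsAlgClosed Ω] [DecidableEq Ω] in
theorem s52mz_disc_ne (a b : K₀) (hD : 4 * a ^ 3 + 27 * b ^ 2 ≠ 0) :
    ((s52n_short a b : Affine K₀)⁄Ω).Δ ≠ 0 := by
  rw [s52mz_baseChange, s52n_short_Δ]
  have hDmap : 4 * (algebraMap K₀ Ω a) ^ 3 + 27 * (algebraMap K₀ Ω b) ^ 2 =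
      algebraMap K₀ Ω (4 * a ^ 3 + 27 * b ^ 2) := by
    simp only [map_add, map_mul, map_pow, map_ofNat]
  rw [hDmap]
  exact mul_ne_zero (by norm_num) ((map_ne_zero _).mpr hD)

/-- **the group-theoretic conclusion**, general form: if `σ P₀ = ± P₀` for one nonzero
`P₀ ∈ E[5]`, then `σ⁴` or `σ⁵` acts as `± 1` on `E[5]`. -/
theorem s52mz_conclude_gen (W' : Affine K₀) (hΔW : (W'⁄Ω).Δ ≠ 0) (σ : Ω ≃ₐ[K₀] Ω)
    (P0 : (W'⁄Ω).Point) (h5 : 5 • P0 = 0) (hne : P0 ≠ 0)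
    (hpm : σ • P0 = P0 ∨ σ • P0 = -P0) :
    (∀ T : (W'⁄Ω).Point, 5 • T = 0 → (σ ^ 4) • T = T ∨ (σ ^ 4) • T = -T) ∨
      (∀ T : (W'⁄Ω).Point, 5 • T = 0 → (σ ^ 5) • T = T ∨ (σ ^ 5) • T = -T) := by
  -- the sign
  obtain ⟨s, hs, hsP⟩ : ∃ s : ℤ, (s = 1 ∨ s = -1) ∧ s • (σ • P0) = P0 := by
    rcases hpm with h | h
    · exact ⟨1, Or.inl rfl, by rw [one_zsmul, h]⟩
    · exact ⟨-1, Or.inr rfl, by rw [h, neg_smul, one_zsmul, neg_neg]⟩
  have hss : s * s = 1 := by rcases hs with rfl | rfl <;> norm_num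
  -- the `5`-torsion subgroup
  let H : AddSubgroup (W'⁄Ω).Point :=
    { carrier := {T | 5 • T = 0}
      zero_mem' := smul_zero 5
      add_mem' := by
        intro x y hx hy
        have hx' : 5 • x = 0 := hx
        have hy' : 5 • y = 0 := hy
        show 5 • (x + y) = 0
        rw [smul_add, hx', hy', add_zero]
      neg_mem' := by
        intro x hx
        have hx' : 5 • x = 0 := hx
        show 5 • (-x) = 0
        rw [smul_neg, hx', neg_zero] }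
  have hHmem : ∀ T : (W'⁄Ω).Point, T ∈ H ↔ 5 • T = 0 := fun T => Iff.rfl
  have hcard : Nat.card H = 25 := by
    have := ld_card_torsion (W'⁄Ω) hΔW (n := 5) (by decide)
    exact this
  have hH5 : ∀ x : H, 5 • x = 0 := fun x => Subtype.ext x.2
  -- the twisted action
  let gfull : (W'⁄Ω).Point →+ (W'⁄Ω).Point :=
    (zsmulAddGroupHom s).comp (DistribSMul.toAddMonoidHom (W'⁄Ω).Point σ)
  have hgfull : ∀ T : (W'⁄Ω).Point, gfull T = s • (σ • T) := fun T => rfl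
  have hgH : ∀ x : H, gfull (x : (W'⁄Ω).Point) ∈ H := by
    intro x
    rw [hHmem, ← map_nsmul, (hHmem _).mp x.2, map_zero]
  let g : H →+ H := (gfull.comp H.subtype).codRestrict H hgH
  have hgcoe : ∀ x : H, ((g x : H) : (W'⁄Ω).Point) = gfull (x : (W'⁄Ω).Point) := fun x => rfl
  have hginj : Function.Injective g := by
    intro x y hxy
    have h1 : gfull (x : (W'⁄Ω).Point) = gfull (y : (W'⁄Ω).Point) := by
      rw [← hgcoe, ← hgcoe, hxy]
    rw [hgfull, hgfull] at h1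
    have h2 := congrArg (fun T => s • T) h1
    simp only [← mul_smul, hss, one_smul] at h2
    exact Subtype.ext (smul_left_cancel σ h2)
  have hfix : g ⟨P0, h5⟩ = ⟨P0, h5⟩ := Subtype.ext hsP
  have hne' : (⟨P0, h5⟩ : H) ≠ 0 := fun h => hne (congrArg Subtype.val h)
  -- iterates
  have hiter : ∀ (k : ℕ) (x : H),
      ((g^[k] x : H) : (W'⁄Ω).Point) = s ^ k • ((σ ^ k) • (x : (W'⁄Ω).Point)) := by
    intro k
    induction k with
    | zero => intro x; simp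
    | succ k ih =>
      intro x
      rw [Function.iterate_succ_apply', hgcoe, hgfull, ih, smul_comm (σ) (s ^ k), ← mul_smul,
        ← mul_smul, ← pow_succ', ← pow_succ']
  have hspow : ∀ k : ℕ, s ^ k = 1 ∨ s ^ k = -1 := by
    intro k
    rcases hs with rfl | rfl
    · left; exact one_pow k
    · exact neg_one_pow_eq_or ℤ k
  have key : ∀ k : ℕ, (∀ x : H, g^[k] x = x) →
      ∀ T : (W'⁄Ω).Point, 5 • T = 0 → (σ ^ k) • T = T ∨ (σ ^ k) • T = -T := by
    intro k hk T h5T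
    have h1 := hiter k ⟨T, h5T⟩
    rw [hk] at h1
    have h1' : T = s ^ k • ((σ ^ k) • T) := h1
    rcases hspow k with h2 | h2
    · left
      rw [h2, one_zsmul] at h1'
      exact h1'.symm
    · right
      rw [h2, neg_smul, one_zsmul] at h1'
      exact (neg_eq_iff_eq_neg.mp h1'.symm)
  rcases s52mz_pow_fix hH5 hcard g hginj ⟨P0, h5⟩ hne' hfix with h | h
  · exact Or.inr (key 5 h)
  · exact Or.inl (key 4 h)

/-- **the group-theoretic conclusion**: if `σ P₀ = ± P₀` for one nonzero `P₀ ∈ E[5]`, then `σ⁴` or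
`σ⁵` fixes all `x`-coordinates of `E[5]`. -/
theorem s52mz_conclude (a b : K₀) (hD : 4 * a ^ 3 + 27 * b ^ 2 ≠ 0) (σ : Ω ≃ₐ[K₀] Ω)
    (P0 : ((s52n_short a b : Affine K₀)⁄Ω).Point) (h5 : 5 • P0 = 0) (hne : P0 ≠ 0)
    (hpm : σ • P0 = P0 ∨ σ • P0 = -P0) :
    s52m_FixesX a b (σ ^ 4) ∨ s52m_FixesX a b (σ ^ 5) := by
  rcases s52mz_conclude_gen (s52n_short a b : Affine K₀) (s52mz_disc_ne a b hD) σ P0 h5 hne hpm
    with h | h
  · left
    intro x y hxy h5xy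
    exact s52m_x_fixed_of_pm a b (h _ h5xy)
  · right
    intro x y hxy h5xy
    exact s52m_x_fixed_of_pm a b (h _ h5xy)

/-- **[RAM-LOC], the node case `j = ∞`** (the statement of `s52m_node` verbatim). -/
theorem s52mz_node [Algebra.IsAlgebraic K₀ Ω] (a b : K₀) (hD : 4 * a ^ 3 + 27 * b ^ 2 ≠ 0)
    (A : ValuationSubring Ω) (h30 : A.valuation (30 : Ω) = 1) {σ : Ω ≃ₐ[K₀] Ω}
    (hσ : σ ∈ A.inertiaSubgroupIn K₀) (hJ : 1 < A.valuation (s52m_J Ω a b)) :
    s52m_FixesX a b (σ ^ 4) ∨ s52m_FixesX a b (σ ^ 5) := by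
  classical
  obtain ⟨u, a', b', hC, ha'1, hb'1, hD'lt, hD'0, hζ⟩ := s52mz_setup a b hD A h30 hσ hJ
  obtain ⟨hv2, hv3, hv5⟩ := s52n_val_235 A h30
  have hclosed : IsAlgClosed (ResidueField A) := s58m_residue_isAlgClosed A
  have hΔW : ((s52n_short a b : Affine K₀)⁄Ω).Δ ≠ 0 := s52mz_disc_ne a b hD
  -- the scaled model and its reduction
  have hM : s58r_Model A (s52n_short (a' : Ω) (b' : Ω)).toAffine
      (s52n_short (residue A a') (residue A b')).toAffine :=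
    ⟨s52n_short a' b', s52n_short_map a' b' A.subtype, s52n_short_map a' b' (residue A)⟩
  have hΔW' : (s52n_short (a' : Ω) (b' : Ω)).toAffine.Δ ≠ 0 := by
    rw [s52n_short_Δ]
    exact mul_ne_zero (by norm_num) hD'0
  have hv5' : A.valuation (((5 : ℕ)) : Ω) = 1 := by exact_mod_cast hv5
  have h2k : (2 : ResidueField A) ≠ 0 := by
    exact_mod_cast s52n_natCast_residue_ne_zero A 2 (by exact_mod_cast hv2)
  have h3k : (3 : ResidueField A) ≠ 0 := by
    exact_mod_cast s52n_natCast_residue_ne_zero A 3 (by exact_mod_cast hv3)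
  have h5k : ((5 : ℕ) : ResidueField A) ≠ 0 := s52n_natCast_residue_ne_zero A 5 hv5'
  -- nodal reduction
  have hΔk : (s52n_short (residue A a') (residue A b')).toAffine.Δ = 0 := by
    rw [s52n_short_Δ]
    have h1 : 4 * residue A a' ^ 3 + 27 * residue A b' ^ 2 =
        residue A (4 * a' ^ 3 + 27 * b' ^ 2) := by
      simp only [map_add, map_mul, map_pow, map_ofNat]
    rw [h1]
    have h2 : residue A (4 * a' ^ 3 + 27 * b' ^ 2) = 0 := by
      rw [residue_eq_zero_iff, A.valuation_lt_one_iff]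
      exact hD'lt
    rw [h2, mul_zero]
  have hc4k : (s52n_short (residue A a') (residue A b')).toAffine.c₄ ≠ 0 := by
    rw [s52n_short_c₄]
    have h48 : (-48 : ResidueField A) ≠ 0 := by
      have : (-48 : ResidueField A) = -(2 ^ 4 * 3) := by norm_num
      rw [this]
      exact neg_ne_zero.mpr (mul_ne_zero (pow_ne_zero _ h2k) h3k)
    exact mul_ne_zero h48 ((s52n_residue_ne_zero_iff A a').mpr ha'1)
  -- a point of exact order `5` on the node, lifted to `E_u⁰`, transported to `E`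
  obtain ⟨Q, hQ1, hQ2⟩ := s58m_exists_prime_pow_order
    (s52n_short (residue A a') (residue A b')).toAffine hΔk hc4k 5 Nat.prime_five h5k 0
  have hQ1' : 5 • Q = 0 := by simpa using hQ1
  have hQ2' : Q ≠ 0 := by simpa using hQ2
  obtain ⟨P', hP'5, hP'Q⟩ := s58m_exists_torsion_lift hM hΔW' hv5' hQ1'
  have hP'ne : (P' : (s52n_short (a' : Ω) (b' : Ω)).toAffine.Point) ≠ 0 := by
    intro h0
    apply hQ2'
    have : P' = 0 := Subtype.ext h0
    rw [← hP'Q, this, map_zero]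
  obtain ⟨P0, hP0⟩ := lrvc_map_surjective (s52n_C u) ((s52n_short a b : Affine K₀)⁄Ω) hC hΔW
    (P' : (s52n_short (a' : Ω) (b' : Ω)).toAffine.Point)
  have h5P0 : 5 • P0 = 0 := by
    apply lrvc_map_injective (s52n_C u) _ hC hΔW
    rw [s52n_map_nsmul, hP0, hP'5, lrvc_map_zero]
  have hP0ne : P0 ≠ 0 := by
    rintro rfl
    rw [lrvc_map_zero] at hP0
    exact hP'ne hP0.symm
  have hpm : σ • P0 = P0 ∨ σ • P0 = -P0 :=
    s52m_twist a b u a' b' hC hΔW hM hσ hζ hv5' h5P0 (by rw [hP0]; exact P'.2)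
  exact s52mz_conclude a b hD σ P0 h5P0 hP0ne hpm

end Main

end Fermat.Agent.S52
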